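import Mathlib
import Fermat.Prelude.Def_FLTPrelim_FreyPackage
import Fermat.Prelude.Def_FLTPrelim_Modularity

set_option autoImplicit false

/-! The integral model `P.freyCurveInt`: it maps to `P.freyCurve`, its discriminant is
`(abc)^{2p}/2^8 ≠ 0`, and it is semistable. -/

namespace Fermat.Agent.Wiring

variable (P : FreyPackage)

lemma a_mod4 : P.a % 4 = 3 := by
  have h := P.ha4
  have h' : ((P.a : ℤ) : ZMod 4) = ((3 : ℤ) : ZMod 4) := by simpa using h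
  rw [ZMod.intCast_eq_intCast_iff] at h'
  change P.a % 4 = 3 % 4 at h'
  omega

lemma two_dvd_b : (2 : ℤ) ∣ P.b :=
  (ZMod.intCast_zmod_eq_zero_iff_dvd P.b 2).1 P.hb2

lemma thirtytwo_dvd_bp : (32 : ℤ) ∣ P.b ^ P.p := by
  have h1 : (2 : ℤ) ^ P.p ∣ P.b ^ P.p := pow_dvd_pow_of_dvd (two_dvd_b P) _
  have h2 : (2 : ℤ) ^ 5 ∣ (2 : ℤ) ^ P.p := pow_dvd_pow _ P.hp5
  have : (32 : ℤ) = 2 ^ 5 := by norm_num
  rw [this]
  exact h2.trans h1

lemma ap_mod4 : P.a ^ P.p % 4 = 3 := by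
  obtain ⟨k, hk⟩ := P.hp_odd
  have ha : P.a ≡ -1 [ZMOD 4] := by
    change P.a % 4 = (-1) % 4
    rw [a_mod4 P]; norm_num
  have := ha.pow P.p
  rw [P.hp_odd.neg_one_pow] at this
  change P.a ^ P.p % 4 = (-1) % 4 at this
  rw [this]; norm_num

lemma four_dvd_a2 : (4 : ℤ) ∣ P.b ^ P.p - 1 - P.a ^ P.p := by
  have h1 := thirtytwo_dvd_bp P
  have h2 := ap_mod4 P
  omega

lemma sixteen_dvd_a4 : (16 : ℤ) ∣ -(P.a ^ P.p) * (P.b ^ P.p) := by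
  apply dvd_mul_of_dvd_right
  exact (by norm_num : (16 : ℤ) ∣ 32).trans (thirtytwo_dvd_bp P)

lemma freyCurveInt_a2 : 4 * P.freyCurveInt.a₂ = P.b ^ P.p - 1 - P.a ^ P.p :=
  Int.mul_ediv_cancel' (four_dvd_a2 P)

lemma freyCurveInt_a4 : 16 * P.freyCurveInt.a₄ = -(P.a ^ P.p) * (P.b ^ P.p) :=
  Int.mul_ediv_cancel' (sixteen_dvd_a4 P)

lemma freyCurveInt_map : P.freyCurveInt.map (Int.castRingHom ℚ) = P.freyCurve := by
  ext
  · simp [FreyPackage.freyCurveInt, FreyPackage.freyCurve]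
  · have h := freyCurveInt_a2 P
    have h' : (4 : ℚ) * ((P.freyCurveInt.a₂ : ℤ) : ℚ) = (P.b : ℚ) ^ P.p - 1 - (P.a : ℚ) ^ P.p := by
      exact_mod_cast h
    change ((P.freyCurveInt.a₂ : ℤ) : ℚ) = ((P.b : ℚ) ^ P.p - 1 - (P.a : ℚ) ^ P.p) / 4
    rw [← h']; ring
  · simp [FreyPackage.freyCurveInt, FreyPackage.freyCurve]
  · have h := freyCurveInt_a4 P
    have h' : (16 : ℚ) * ((P.freyCurveInt.a₄ : ℤ) : ℚ) = -((P.a : ℚ) ^ P.p) * ((P.b : ℚ) ^ P.p) := by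
      exact_mod_cast h
    change ((P.freyCurveInt.a₄ : ℤ) : ℚ) = -((P.a : ℚ) ^ P.p) * ((P.b : ℚ) ^ P.p) / 16
    rw [← h']; ring
  · simp [FreyPackage.freyCurveInt, FreyPackage.freyCurve]

lemma freyCurveInt_isIntegralModelOf : P.freyCurveInt.IsIntegralModelOf P.freyCurve :=
  ⟨1, by rw [one_smul, freyCurveInt_map]⟩

lemma freyCurveInt_c4 : P.freyCurveInt.c₄ =
    (P.a ^ P.p) ^ 2 + P.a ^ P.p * P.b ^ P.p + (P.b ^ P.p) ^ 2 := by
  have h2 := freyCurveInt_a2 P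
  have h4 := freyCurveInt_a4 P
  have e1 : P.freyCurveInt.a₁ = 1 := rfl
  have e3 : P.freyCurveInt.a₃ = 0 := rfl
  have e6 : P.freyCurveInt.a₆ = 0 := rfl
  have hb2 : P.freyCurveInt.b₂ = P.b ^ P.p - P.a ^ P.p := by
    rw [WeierstrassCurve.b₂, e1, h2]; ring
  have hb4 : 8 * P.freyCurveInt.b₄ = -(P.a ^ P.p) * (P.b ^ P.p) := by
    rw [WeierstrassCurve.b₄, e1, e3, ← h4]; ring
  rw [WeierstrassCurve.c₄, hb2]
  linear_combination (-3) * hb4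

lemma freyCurveInt_Δ : 2 ^ 8 * P.freyCurveInt.Δ = (P.a * P.b * P.c) ^ (2 * P.p) := by
  have h2 := freyCurveInt_a2 P
  have h4 := freyCurveInt_a4 P
  have e1 : P.freyCurveInt.a₁ = 1 := rfl
  have e3 : P.freyCurveInt.a₃ = 0 := rfl
  have e6 : P.freyCurveInt.a₆ = 0 := rfl
  have hb2 : P.freyCurveInt.b₂ = P.b ^ P.p - P.a ^ P.p := by
    rw [WeierstrassCurve.b₂, e1, h2]; ring
  have hb4 : 8 * P.freyCurveInt.b₄ = -(P.a ^ P.p) * (P.b ^ P.p) := by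
    rw [WeierstrassCurve.b₄, e1, e3, ← h4]; ring
  have hb6 : P.freyCurveInt.b₆ = 0 := by rw [WeierstrassCurve.b₆, e3, e6]; ring
  have hb8 : P.freyCurveInt.b₈ = - P.freyCurveInt.a₄ ^ 2 := by
    rw [WeierstrassCurve.b₈, e1, e3, e6]; ring
  have hpow : (P.a * P.b * P.c) ^ (2 * P.p) = (P.a ^ P.p * P.b ^ P.p * (P.a ^ P.p + P.b ^ P.p)) ^ 2 := by
    rw [P.hFLT, ← mul_pow, ← mul_pow, ← pow_mul]
    congr 1
    ring
  rw [hpow, WeierstrassCurve.Δ, hb2, hb6, hb8]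
  have h16 : (256 : ℤ) * P.freyCurveInt.a₄ ^ 2 = (P.a ^ P.p * P.b ^ P.p) ^ 2 := by
    linear_combination (16 * P.freyCurveInt.a₄ - (P.a ^ P.p) * (P.b ^ P.p)) * h4
  have h512 : (512 : ℤ) * P.freyCurveInt.b₄ ^ 3 = - (P.a ^ P.p * P.b ^ P.p) ^ 3 := by
    have : (8 * P.freyCurveInt.b₄) ^ 3 = (-(P.a ^ P.p) * (P.b ^ P.p)) ^ 3 := by rw [hb4]
    linear_combination this
  linear_combination (P.b ^ P.p - P.a ^ P.p) ^ 2 * h16 - 4 * h512

lemma freyCurveInt_Δ_ne_zero : P.freyCurveInt.Δ ≠ 0 := by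
  intro h
  have := freyCurveInt_Δ P
  rw [h, mul_zero] at this
  exact pow_ne_zero _ P.habc0 this.symm

/-- A prime dividing the discriminant divides `abc`. -/
lemma dvd_abc_of_dvd_Δ {q : ℕ} (hq : q.Prime) (h : (q : ℤ) ∣ P.freyCurveInt.Δ) :
    (q : ℤ) ∣ P.a * P.b * P.c := by
  have hq' : Prime (q : ℤ) := Nat.prime_iff_prime_int.1 hq
  apply hq'.dvd_of_dvd_pow (n := 2 * P.p)
  rw [← freyCurveInt_Δ]
  exact dvd_mul_of_dvd_right h _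

lemma freyCurveInt_isSemistableModel : P.freyCurveInt.IsSemistableModel := by
  intro q hq hΔ hc4
  have hq' : Prime (q : ℤ) := Nat.prime_iff_prime_int.1 hq
  have habc := dvd_abc_of_dvd_Δ P hq hΔ
  rw [freyCurveInt_c4] at hc4
  have hco : IsCoprime P.a P.b := by
    rw [Int.isCoprime_iff_gcd_eq_one]
    have := P.hgcdab
    change ((Int.gcd P.a P.b : ℕ) : ℤ) = 1 at this
    exact_mod_cast this
  have hcoab : ¬ ((q : ℤ) ∣ P.a ∧ (q : ℤ) ∣ P.b) := fun h =>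
    hq'.not_unit (hco.isUnit_of_dvd' h.1 h.2)
  have hpow {x : ℤ} (h : (q : ℤ) ∣ x) : (q : ℤ) ∣ x ^ P.p := dvd_pow h P.hp0
  rcases hq'.dvd_or_dvd habc with hab | hc
  · rcases hq'.dvd_or_dvd hab with ha | hb
    · apply hcoab
      refine ⟨ha, ?_⟩
      have : (q : ℤ) ∣ (P.b ^ P.p) ^ 2 := by
        have h1 : (q : ℤ) ∣ (P.a ^ P.p) ^ 2 + P.a ^ P.p * P.b ^ P.p := by
          apply dvd_add
          · exact dvd_pow (hpow ha) two_ne_zero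
          · exact dvd_mul_of_dvd_left (hpow ha) _
        exact (dvd_add_right h1).1 hc4
      exact hq'.dvd_of_dvd_pow (hq'.dvd_of_dvd_pow this)
    · apply hcoab
      refine ⟨?_, hb⟩
      have : (q : ℤ) ∣ (P.a ^ P.p) ^ 2 := by
        have h1 : (q : ℤ) ∣ P.a ^ P.p * P.b ^ P.p + (P.b ^ P.p) ^ 2 := by
          apply dvd_add
          · exact dvd_mul_of_dvd_right (hpow hb) _
          · exact dvd_pow (hpow hb) two_ne_zero
        rw [add_assoc] at hc4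
        exact (dvd_add_left h1).1 hc4
      exact hq'.dvd_of_dvd_pow (hq'.dvd_of_dvd_pow this)
  · have hab : (q : ℤ) ∣ P.a ^ P.p + P.b ^ P.p := by rw [P.hFLT]; exact hpow hc
    have hprod : (q : ℤ) ∣ P.a ^ P.p * P.b ^ P.p := by
      have h1 : (q : ℤ) ∣ (P.a ^ P.p + P.b ^ P.p) ^ 2 := dvd_pow hab two_ne_zero
      have h2 : P.a ^ P.p * P.b ^ P.p = (P.a ^ P.p + P.b ^ P.p) ^ 2 -
        ((P.a ^ P.p) ^ 2 + P.a ^ P.p * P.b ^ P.p + (P.b ^ P.p) ^ 2) := by ring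
      rw [h2]
      exact dvd_sub h1 hc4
    rcases hq'.dvd_or_dvd hprod with ha | hb
    · have hb : (q : ℤ) ∣ P.b ^ P.p := (dvd_add_right ha).1 hab
      exact hcoab ⟨hq'.dvd_of_dvd_pow ha, hq'.dvd_of_dvd_pow hb⟩
    · have ha : (q : ℤ) ∣ P.a ^ P.p := (dvd_add_left hb).1 hab
      exact hcoab ⟨hq'.dvd_of_dvd_pow ha, hq'.dvd_of_dvd_pow hb⟩

/-- Since `32 ∣ b ^ p`... the discriminant of the Frey curve is even as soon as `p ≥ 5`:
`v_2(Δ) = 2 p v_2(abc) - 8 ≥ 2`. -/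
lemma two_dvd_freyCurveInt_Δ : (2 : ℤ) ∣ P.freyCurveInt.Δ := by
  have h := freyCurveInt_Δ P
  have h1 : (2 : ℤ) ^ (2 * P.p) ∣ (P.a * P.b * P.c) ^ (2 * P.p) :=
    pow_dvd_pow_of_dvd P.two_dvd_abc _
  have h2 : (2 : ℤ) ^ 9 ∣ (2 : ℤ) ^ (2 * P.p) := pow_dvd_pow _ (by have := P.hp5; omega)
  have h3 : (2 : ℤ) ^ 9 ∣ 2 ^ 8 * P.freyCurveInt.Δ := by rw [h]; exact h2.trans h1
  have h4 : (2 : ℤ) ^ 9 = 2 ^ 8 * 2 := by norm_num
  rw [h4] at h3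
  exact (mul_dvd_mul_iff_left (by norm_num)).1 h3

/-- The prime divisors of the discriminant of the Frey curve are exactly those of `abc`. -/
lemma dvd_Δ_iff {q : ℕ} (hq : q.Prime) :
    (q : ℤ) ∣ P.freyCurveInt.Δ ↔ (q : ℤ) ∣ P.a * P.b * P.c := by
  refine ⟨dvd_abc_of_dvd_Δ P hq, fun h => ?_⟩
  by_cases hq2 : q = 2
  · rw [hq2]; exact two_dvd_freyCurveInt_Δ P
  have hq' : Prime (q : ℤ) := Nat.prime_iff_prime_int.1 hq
  have h1 : (q : ℤ) ∣ 2 ^ 8 * P.freyCurveInt.Δ := by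
    rw [freyCurveInt_Δ]
    exact dvd_pow h (by have := P.hp5; omega)
  rcases hq'.dvd_or_dvd h1 with h2 | h2
  · exfalso
    have h3 : (q : ℤ) ∣ 2 := hq'.dvd_of_dvd_pow h2
    have h4 : q ∣ 2 := by exact_mod_cast h3
    exact hq2 ((Nat.prime_dvd_prime_iff_eq hq Nat.prime_two).1 h4)
  · exact h2

end Fermat.Agent.Wiring
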