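import Fermat.Agent.Wiring.Top

set_option autoImplicit false
open WeierstrassCurve WeierstrassCurve.Affine WeierstrassCurve.Affine.Point
open CuspForm ModularFormClass UpperHalfPlane

namespace Fermat.Agent.Wiring

def Stmt51 : Prop := ∀ (W : WeierstrassCurve ℤ) (_ : W.Δ ≠ 0) (_ : W.IsSemistableModel),
  W.ModRepIsIrreducible 3 ∨ W.ModRepIsIrreducible 5

def Stmt52 : Prop := ∀ (W : WeierstrassCurve ℤ) (_ : W.Δ ≠ 0) (_ : W.IsSemistableModel)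
  (_ : W.ModRepIsIrreducible 5), ∃ W' : WeierstrassCurve ℤ, W'.Δ ≠ 0 ∧ W'.IsSemistableModel ∧
    W'.ModRepIsIrreducible 3 ∧ ∀ ℓ : ℕ, ℓ.Prime → W.IsGoodPrimeFor ℓ → W'.IsGoodPrimeFor ℓ →
      ℓ ≠ 5 → (5 : ℤ) ∣ (W'.apOfModel ℓ - W.apOfModel ℓ)

def Stmt59 : Prop := ∀ (p : ℕ) (_ : p = 3 ∨ p = 5)
    (W : WeierstrassCurve ℤ) (_ : W.Δ ≠ 0) (_ : W.IsSemistableModel) (_ : W.ModRepIsIrreducible p)
    (M₀ : ℕ) [NeZero M₀] (_ : W.IsResiduallyModularOfLevel p M₀)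
    (_ : ¬ p ^ 2 ∣ M₀)
    (_ : ∀ q : ℕ, q.Prime → q ≠ p → ¬ q ^ 3 ∣ M₀),
    Mlc1IsModularModelOfExactConductorLevel W

/-- The form of Langlands–Tunnell needed in order to apply `S59` at `p = 3`
(`S50` gives this up to the case `9 ∣ M`). -/
def LT3 : Prop := ∀ (W : WeierstrassCurve ℤ) (_ : W.Δ ≠ 0) (_ : W.IsSemistableModel)
  (_ : W.ModRepIsIrreducible 3), ∃ M : ℕ, 0 < M ∧ W.IsResiduallyModularOfLevel 3 M ∧
    (∀ q : ℕ, q.Prime → q ≠ 3 → ¬ q ^ 3 ∣ M) ∧ ¬ 3 ^ 2 ∣ M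

/-- modularity at the exact conductor level for all semistable curves -/
def StmtExact : Prop := ∀ (W : WeierstrassCurve ℤ) (_ : W.Δ ≠ 0) (_ : W.IsSemistableModel),
  Mlc1IsModularModelOfExactConductorLevel W

theorem stmtExact_of (hLT : LT3) (h51 : Stmt51) (h52 : Stmt52) (h59 : Stmt59) : StmtExact := by
  have h3 : ∀ (W : WeierstrassCurve ℤ) (_ : W.Δ ≠ 0) (_ : W.IsSemistableModel)
      (_ : W.ModRepIsIrreducible 3), Mlc1IsModularModelOfExactConductorLevel W := by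
    intro W hΔ hW hirr
    obtain ⟨M, hM, hres, hcube, h9⟩ := hLT W hΔ hW hirr
    haveI : NeZero M := ⟨hM.ne'⟩
    exact h59 3 (Or.inl rfl) W hΔ hW hirr M hres h9 hcube
  intro W hΔ hW
  rcases h51 W hΔ hW with h | h
  · exact h3 W hΔ hW h
  · obtain ⟨W', hΔ', hW', hirr', hcong⟩ := h52 W hΔ hW h
    obtain ⟨N, hN, hsq, hdvd, f, hf, hcoef⟩ := h3 W' hΔ' hW' hirr'
    haveI : NeZero N := ⟨hN.ne'⟩
    have hsq' : ∀ q : ℕ, q.Prime → ¬ q ^ 2 ∣ N := by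
      intro q hq hsqd
      exact Nat.squarefree_iff_prime_squarefree.mp hsq q hq (by rwa [← pow_two])
    refine h59 5 (Or.inr rfl) W hΔ hW h N ?_ (hsq' 5 (by norm_num)) ?_
    · obtain ⟨𝔪, hmax, hp⟩ := FLTPrelim.exists_maximalIdeal_natCast_prime_mem
        (p := 5) (by norm_num)
      refine ⟨f, 𝔪, hf, hmax, hp, ?_⟩
      intro ℓ hℓ hgood hℓN hℓ5
      have hgood' : W'.IsGoodPrimeFor ℓ := fun hd => hℓN ((hdvd ℓ hℓ).2 hd)
      refine ⟨((W'.apOfModel ℓ : ℤ) : integralClosure ℤ ℂ), ?_, ?_⟩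
      · rw [hcoef ℓ hℓ hgood' hℓN]; simp
      · obtain ⟨k, hk⟩ := hcong ℓ hℓ hgood hgood' hℓ5
        have : ((W'.apOfModel ℓ : ℤ) : integralClosure ℤ ℂ) -
            ((W.apOfModel ℓ : ℤ) : integralClosure ℤ ℂ) = ((5 : ℕ) : integralClosure ℤ ℂ) * (k : ℤ) := by
          rw [← Int.cast_sub, hk]; push_cast; ring
        rw [this]
        exact 𝔪.mul_mem_right _ hp
    · intro q hq _ h3'
      exact hsq' q hq ((pow_dvd_pow q (by norm_num)).trans h3')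

theorem stmt60_of_exact (h : StmtExact) : Stmt60 := by
  intro W hΔ hW
  obtain ⟨N, hN, hsq, hdvd, hmod⟩ := h W hΔ hW
  exact ⟨W, ⟨1, by rw [one_smul]⟩, N, hN, hmod⟩

theorem stmt06_of_exact (h : StmtExact) : Stmt06 :=
  stmt06_of_exactConductorLevel fun P =>
    h P.freyCurveInt (freyCurveInt_Δ_ne_zero P) (freyCurveInt_isSemistableModel P)

end Fermat.Agent.Wiring
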