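import Mathlib
import Fermat.Prelude.Def_FLTPrelim_FreyPackage
import Fermat.Prelude.Def_FLTPrelim_GaloisRep
import Fermat.Prelude.Def_FLTPrelim_Modularity
import Fermat.Prelude.Def_FLTPrelim_ModularRep
import Fermat.Prelude.Def_FLTPrelim_Ramification
import Fermat.Prelude.Def_FLTPrelim_CofixedLine
import Fermat.Prelude.Def_FreyPackage_IsConductorLevel
import Fermat.Prelude.Def_WeierstrassCurve_Mlc1RowStatement
import Fermat.Agent.Wiring.FreyModel

set_option autoImplicit false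
open WeierstrassCurve WeierstrassCurve.Affine WeierstrassCurve.Affine.Point
open CuspForm ModularFormClass UpperHalfPlane

namespace Fermat.Agent.Wiring

/-! ### Statement-level propositions -/

def Stmt04 : Prop := ∀ P : FreyPackage, P.freyCurve.IsModular

def Stmt05 : Prop := ∀ (P : FreyPackage) {q : ℕ} (_ : q.Prime) (_ : q ≠ 2) (_ : q ≠ P.p),
  P.GaloisRepUnramifiedAt q

def Stmt06 : Prop := ∀ P : FreyPackage, ∃ N : ℕ, P.IsConductorLevel N ∧ P.ModularRepOfLevel N

def Stmt07 : Prop := ∀ f : CuspForm (CongruenceSubgroup.Gamma0 2) 2, f = 0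

def Stmt08 : Prop := ∀ f : CuspForm (CongruenceSubgroup.Gamma0 1) 2, f = 0

def Stmt09 : Prop := ∀ P : FreyPackage,
  GaloisRepIsIrreducible (K := AlgebraicClosure ℚ) ℚ P.freyCurve P.p

def Stmt10 : Prop := ∀ (P : FreyPackage) (_ : P.p = 5 ∨ P.p = 7 ∨ P.p = 13),
  ¬ HasGaloisStableCofixedLine (K := AlgebraicClosure ℚ) ℚ P.freyCurve P.p

def Stmt11 : Prop := ∀ (P : FreyPackage) (_ : P.p = 11),
  ¬ HasGaloisStableCofixedLine (K := AlgebraicClosure ℚ) ℚ P.freyCurve P.p

def Stmt12 : Prop := ∀ (P : FreyPackage) (_ : 17 ≤ P.p),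
  ¬ HasGaloisStableCofixedLine (K := AlgebraicClosure ℚ) ℚ P.freyCurve P.p

def Stmt13 : Prop := ∀ (P : FreyPackage)
  (_ : ¬ GaloisRepIsIrreducible (K := AlgebraicClosure ℚ) ℚ P.freyCurve P.p),
  HasGaloisStableCofixedLine (K := AlgebraicClosure ℚ) ℚ P.freyCurve P.p

def Stmt43 : Prop := ∀ (P : FreyPackage) {N q : ℕ} (_ : P.IsConductorLevel N) (_ : q.Prime)
  (_ : q ≠ 2) (_ : q ≠ P.p) (_ : q ∣ N)
  (_ : GaloisRepIsIrreducible (K := AlgebraicClosure ℚ) ℚ P.freyCurve P.p)
  (_ : P.ModularRepOfLevel N) (_ : P.GaloisRepUnramifiedAt q),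
  ∃ M : ℕ, M ∣ N ∧ ¬ q ∣ M ∧ P.ModularRepOfLevel M

def Stmt44 : Prop := ∀ (P : FreyPackage) {N : ℕ} (_ : P.IsConductorLevel N) (_ : P.p ∣ N)
  (_ : GaloisRepIsIrreducible (K := AlgebraicClosure ℚ) ℚ P.freyCurve P.p)
  (_ : P.ModularRepOfLevel N), ∃ M : ℕ, M ∣ N ∧ ¬ P.p ∣ M ∧ P.ModularRepOfLevel M

def Stmt45 : Prop := ∀ (P : FreyPackage) (_ : P.freyCurve.IsModular)
  (_ : GaloisRepIsIrreducible (K := AlgebraicClosure ℚ) ℚ P.freyCurve P.p),
  ∃ f : CuspForm (CongruenceSubgroup.Gamma0 2) 2, f ≠ 0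

def Stmt60 : Prop := ∀ (W : WeierstrassCurve ℤ) (_ : W.Δ ≠ 0) (_ : W.IsSemistableModel),
  (W.map (Int.castRingHom ℚ)).IsModular

/-! ### Wiring -/

theorem no_frey_of (h04 : Stmt04) (h09 : Stmt09) (h45 : Stmt45) (h07 : Stmt07) :
    FreyPackage → False := by
  intro P
  obtain ⟨f, hf⟩ := h45 P (h04 P) (h09 P)
  exact hf (h07 f)

theorem stmt09_of (h10 : Stmt10) (h11 : Stmt11) (h12 : Stmt12) (h13 : Stmt13) : Stmt09 := by
  intro P
  by_contra hred
  have hline := h13 P hred
  have h5 := P.hp5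
  have pp := P.pp
  by_cases h17 : 17 ≤ P.p
  · exact h12 P h17 hline
  · have : P.p = 5 ∨ P.p = 7 ∨ P.p = 11 ∨ P.p = 13 := by
      have hlt : P.p < 17 := not_le.1 h17
      interval_cases h : P.p <;> simp_all (decide := true)
    rcases this with h | h | h | h
    · exact h10 P (Or.inl h) hline
    · exact h10 P (Or.inr (Or.inl h)) hline
    · exact h11 P h hline
    · exact h10 P (Or.inr (Or.inr h)) hline

theorem stmt04_of_stmt60 (h60 : Stmt60) : Stmt04 := by
  intro P
  have h := h60 P.freyCurveInt (freyCurveInt_Δ_ne_zero P) (freyCurveInt_isSemistableModel P)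
  rwa [freyCurveInt_map] at h

/-- `S06` from modularity of the integral Frey curve at its exact conductor level. -/
theorem stmt06_of_exactConductorLevel
    (h : ∀ P : FreyPackage, Mlc1IsModularModelOfExactConductorLevel P.freyCurveInt) : Stmt06 := by
  intro P
  obtain ⟨N, hN, hsq, hdvd, f, hf, hcoef⟩ := h P
  refine ⟨N, ⟨hN, hsq, fun q hq hqN => (dvd_Δ_iff P hq).1 ((hdvd q hq).1 hqN)⟩, ?_⟩
  obtain ⟨𝔪, hmax, hp⟩ := FLTPrelim.exists_maximalIdeal_natCast_prime_mem P.pp
  refine ⟨f, P.freyCurveInt, 𝔪, hf, freyCurveInt_isIntegralModelOf P, hmax, hp, ?_⟩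
  intro ℓ hℓ hgood hℓN hℓp
  refine ⟨((P.freyCurveInt.apOfModel ℓ : ℤ) : integralClosure ℤ ℂ), ?_, ?_⟩
  · rw [hcoef ℓ hℓ hgood hℓN]; simp
  · rw [sub_self]; exact 𝔪.zero_mem

/-- If the conductor level is modular then we can lower it to `2`. -/
theorem stmt45_of (h05 : Stmt05) (h06 : Stmt06) (h08 : Stmt08) (h43 : Stmt43) (h44 : Stmt44) :
    Stmt45 := by
  intro P _ hirr
  obtain ⟨N, hN, hmod⟩ := h06 P
  -- strong induction on the level
  have key : ∀ n : ℕ, ∀ N : ℕ, N ≤ n → P.IsConductorLevel N → P.ModularRepOfLevel N →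
      ∃ f : CuspForm (CongruenceSubgroup.Gamma0 2) 2, f ≠ 0 := by
    intro n
    induction n with
    | zero => intro N hNn hN _; exact absurd hN.pos (by omega)
    | succ n ih =>
      intro N hNn hN hmod
      by_cases hodd : ∃ q : ℕ, q.Prime ∧ q ≠ 2 ∧ q ∣ N
      · obtain ⟨q, hq, hq2, hqN⟩ := hodd
        obtain ⟨M, hMN, hqM, hM⟩ : ∃ M : ℕ, M ∣ N ∧ ¬ q ∣ M ∧ P.ModularRepOfLevel M := by
          by_cases hqp : q = P.p
          · subst hqp
            exact h44 P hN hqN hirr hmod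
          · exact h43 P hN hq hq2 hqp hqN hirr hmod (h05 P hq hq2 hqp)
        have hMpos : 0 < M := Nat.pos_of_ne_zero (by rintro rfl; exact hqM (dvd_zero _))
        have hMlt : M < N := lt_of_le_of_ne (Nat.le_of_dvd hN.pos hMN)
          (by rintro rfl; exact hqM hqN)
        exact ih M (by omega) (hN.of_dvd hMN hMpos) hM
      · push Not at hodd
        have hN12 : N = 1 ∨ N = 2 := by
          by_cases h1 : N = 1
          · exact Or.inl h1
          right
          obtain ⟨q, hq, hqN⟩ := Nat.exists_prime_and_dvd h1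
          have hq2 : q = 2 := by
            by_contra hq2
            exact hodd q hq hq2 hqN
          subst hq2
          obtain ⟨m, rfl⟩ := hqN
          by_cases hm : m = 1
          · rw [hm]
          exfalso
          obtain ⟨r, hr, hrm⟩ := Nat.exists_prime_and_dvd hm
          have hr2 : r = 2 := by
            by_contra hr2
            exact hodd r hr hr2 (dvd_mul_of_dvd_right hrm _)
          subst hr2
          apply hN.sq_not_dvd Nat.prime_two
          rw [pow_two]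
          exact mul_dvd_mul_left 2 hrm
        obtain ⟨f, W, 𝔪, hf, -⟩ := hmod
        rcases hN12 with rfl | rfl
        · exact absurd (h08 f) hf.ne_zero
        · exact ⟨f, hf.ne_zero⟩
  exact key N N le_rfl hN hmod

end Fermat.Agent.Wiring
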