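import Mathlib.NumberTheory.FLT.Basic
import Mathlib.NumberTheory.FLT.Three
import Mathlib.NumberTheory.FLT.Four
import Fermat.Prelude.Def_FLTPrelim_FreyPackage
import Fermat.Agent.S02

set_option autoImplicit false

namespace Fermat.Agent.Wiring

/-- `S03 → S01`. -/
theorem flt_of_no_frey (h : FreyPackage → False) (n : ℕ) (hn : 3 ≤ n) (a b c : ℕ)
    (ha : 0 < a) (hb : 0 < b) (hc : 0 < c) : a ^ n + b ^ n ≠ c ^ n := by
  have key : FermatLastTheorem := by
    apply FermatLastTheorem.of_odd_primes
    intro p pp hodd
    by_cases hp3 : p = 3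
    · rw [hp3]; exact fermatLastTheoremThree
    have hp5 : 5 ≤ p := by
      have h2 := pp.two_le
      have : p ≠ 4 := by rintro rfl; exact absurd pp (by decide)
      have : p ≠ 2 := by rintro rfl; exact absurd hodd (by decide)
      omega
    rw [fermatLastTheoremFor_iff_int]
    intro a b c ha hb hc H
    exact (Fermat.Agent.S02.result a b c ha hb hc p pp hp5 H).elim h
  exact key n hn a b c ha.ne' hb.ne' hc.ne'

end Fermat.Agent.Wiring
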